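import Mathlib
import Fermat.Prelude.Def_Algebra_PatchingDatum
import Fermat.Agent.S57.H90_PowerSeriesRegular
import Fermat.Agent.S57.H93_Concrete

/-!
# S59 / PATCH (helper53): facts about a single patching level

`LevelD … d` is a patching level of the prelude with the rank `d` as a parameter.
For such a level `L` (with `Λ = 𝒪⟦X₁,…,X_r⟧`, `R` local):
* `L.φ` and `L.ψ` are local;
* `gen L : Λ^d → L.N`, `v ↦ ∑ v i • b i` is `Λ`-linear and surjective;
* `phiSub L 𝔞 = {∑ φ (c i) • b i | c i ∈ 𝔞}` is a submodule, of index at most `#(Λ/𝔞)^d`;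
* `𝔪 ^ K • ⊤ ≤ phiSub L 𝔞` for `K ≥ #(Λ/𝔞)^d` (uniform in the level);
* `L.π` maps `𝔪 ^ m • ⊤` onto `𝔪_R ^ m • ⊤`;
* `M` is free of rank `d` over `𝒪`.
-/

set_option autoImplicit false
set_option linter.style.haveILetI false
set_option linter.unusedSectionVars false

namespace Fermat.Agent.S59.Patch

open IsLocalRing MvPowerSeries

/-- A patching level of the prelude, with the rank `d` as a parameter. -/
structure LevelD (𝒪 : Type) [CommRing 𝒪] (r : ℕ) (R : Type) [CommRing R]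
    [Algebra 𝒪 R] (M : Type) [AddCommGroup M] [Module R M]
    (J : Ideal (MvPowerSeries (Fin r) 𝒪)) (d : ℕ) : Type 1 where
  N : Type
  [instAddCommGroup : AddCommGroup N]
  [instModule : Module (MvPowerSeries (Fin r) 𝒪) N]
  φ : MvPowerSeries (Fin r) 𝒪 →ₐ[𝒪] MvPowerSeries (Fin r) 𝒪
  ψ : MvPowerSeries (Fin r) 𝒪 →ₐ[𝒪] R
  ψ_surjective : Function.Surjective ψ
  ψ_φ_X : ∀ i : Fin r, ψ (φ (MvPowerSeries.X i)) = 0
  π : N →+ M
  π_smul : ∀ (f : MvPowerSeries (Fin r) 𝒪) (x : N), π (f • x) = ψ f • π x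
  π_surjective : Function.Surjective π
  ker_π : ∀ x : N, π x = 0 ↔
    x ∈ (Ideal.span (Set.range fun i : Fin r => φ (MvPowerSeries.X i))) •
      (⊤ : Submodule (MvPowerSeries (Fin r) 𝒪) N)
  b : Fin d → N
  b_span : ∀ x : N, ∃ c : Fin d → MvPowerSeries (Fin r) 𝒪, x = ∑ i, φ (c i) • b i
  b_rel : ∀ c : Fin d → MvPowerSeries (Fin r) 𝒪, ∑ i, φ (c i) • b i = 0 ↔ ∀ i, c i ∈ J

attribute [instance] LevelD.instAddCommGroup LevelD.instModule

section Defs

variable {𝒪 : Type} [CommRing 𝒪] {r : ℕ} {R : Type} [CommRing R] [Algebra 𝒪 R]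
  {M : Type} [AddCommGroup M] [Module R M] {J : Ideal (MvPowerSeries (Fin r) 𝒪)}

/-- A patching level of the prelude as a `LevelD`. -/
def LevelD.ofLevel (L : Algebra.PatchingLevel 𝒪 r R M J) {d : ℕ} (h : L.d = d) :
    LevelD 𝒪 r R M J d where
  N := L.N
  φ := L.φ
  ψ := L.ψ
  ψ_surjective := L.ψ_surjective
  ψ_φ_X := L.ψ_φ_X
  π := L.π
  π_smul := L.π_smul
  π_surjective := L.π_surjective
  ker_π := L.ker_π
  b := fun i => L.b (Fin.cast h.symm i)
  b_span := by
    subst h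
    exact L.b_span
  b_rel := by
    subst h
    exact L.b_rel

/-- A `LevelD` as a patching level of the prelude. -/
def LevelD.toLevel {d : ℕ} (L : LevelD 𝒪 r R M J d) : Algebra.PatchingLevel 𝒪 r R M J where
  N := L.N
  φ := L.φ
  ψ := L.ψ
  ψ_surjective := L.ψ_surjective
  ψ_φ_X := L.ψ_φ_X
  π := L.π
  π_smul := L.π_smul
  π_surjective := L.π_surjective
  ker_π := L.ker_π
  d := d
  b := L.b
  b_span := L.b_span
  b_rel := L.b_rel

variable {d : ℕ} (L : LevelD 𝒪 r R M J d)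

/-- The generating map `Λ^d → N`, `v ↦ ∑ v i • b i`. -/
noncomputable def gen : (Fin d → MvPowerSeries (Fin r) 𝒪) →ₗ[MvPowerSeries (Fin r) 𝒪] L.N :=
  Fintype.linearCombination (MvPowerSeries (Fin r) 𝒪) L.b

theorem gen_apply (v : Fin d → MvPowerSeries (Fin r) 𝒪) : gen L v = ∑ i, v i • L.b i := by
  rw [gen, Fintype.linearCombination_apply]

theorem gen_surjective : Function.Surjective (gen L) := by
  intro x
  obtain ⟨c, hc⟩ := L.b_span x
  exact ⟨fun i => L.φ (c i), by rw [gen_apply, hc]⟩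

/-- `gen (φ ∘ c) = ∑ φ (c i) • b i`. -/
theorem gen_phi (c : Fin d → MvPowerSeries (Fin r) 𝒪) :
    gen L (fun i => L.φ (c i)) = ∑ i, L.φ (c i) • L.b i := gen_apply L _

/-- The `φ`-multiples of an ideal `𝔞` of `Λ`: `{∑ φ (c i) • b i | c i ∈ 𝔞}`. -/
def phiSub (𝔞 : Ideal (MvPowerSeries (Fin r) 𝒪)) : Submodule (MvPowerSeries (Fin r) 𝒪) L.N where
  carrier := {x | ∃ c : Fin d → MvPowerSeries (Fin r) 𝒪, (∀ i, c i ∈ 𝔞) ∧
    x = ∑ i, L.φ (c i) • L.b i}
  zero_mem' := ⟨fun _ => 0, fun _ => 𝔞.zero_mem, by simp⟩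
  add_mem' := by
    rintro x y ⟨c, hc, rfl⟩ ⟨c', hc', rfl⟩
    refine ⟨fun i => c i + c' i, fun i => 𝔞.add_mem (hc i) (hc' i), ?_⟩
    simp [add_smul, Finset.sum_add_distrib]
  smul_mem' := by
    rintro y x ⟨c, hc, rfl⟩
    -- write `y • b i = ∑ j, φ (e i j) • b j`
    have h1 : ∀ i, ∃ e : Fin d → MvPowerSeries (Fin r) 𝒪,
        y • L.b i = ∑ j, L.φ (e j) • L.b j := fun i => L.b_span _
    choose e he using h1
    refine ⟨fun j => ∑ i, c i * e i j, fun j => 𝔞.sum_mem fun i _ => 𝔞.mul_mem_right _ (hc i), ?_⟩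
    rw [Finset.smul_sum]
    have h2 : ∀ i, y • L.φ (c i) • L.b i = ∑ j, L.φ (c i * e i j) • L.b j := by
      intro i
      rw [smul_comm, he i, Finset.smul_sum]
      refine Finset.sum_congr rfl fun j _ => ?_
      rw [smul_smul, map_mul]
    simp only [h2]
    rw [Finset.sum_comm]
    refine Finset.sum_congr rfl fun j _ => ?_
    rw [map_sum, Finset.sum_smul]

theorem mem_phiSub {𝔞 : Ideal (MvPowerSeries (Fin r) 𝒪)} {x : L.N} :
    x ∈ phiSub L 𝔞 ↔ ∃ c : Fin d → MvPowerSeries (Fin r) 𝒪, (∀ i, c i ∈ 𝔞) ∧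
      x = ∑ i, L.φ (c i) • L.b i := Iff.rfl

/-- `(F5)`: the coefficients of an element of `phiSub L 𝔞` lie in `𝔞` if `J ≤ 𝔞`. -/
theorem mem_of_sum_mem_phiSub {𝔞 : Ideal (MvPowerSeries (Fin r) 𝒪)} (hJ : J ≤ 𝔞)
    (c : Fin d → MvPowerSeries (Fin r) 𝒪) (h : ∑ i, L.φ (c i) • L.b i ∈ phiSub L 𝔞) (i : Fin d) :
    c i ∈ 𝔞 := by
  obtain ⟨a, ha, hx⟩ := h
  have h0 : ∑ i, L.φ (c i - a i) • L.b i = 0 := by
    simp only [map_sub, sub_smul, Finset.sum_sub_distrib]
    rw [hx, sub_self]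
  have h1 := (L.b_rel _).mp h0 i
  have : c i = (c i - a i) + a i := by ring
  rw [this]
  exact 𝔞.add_mem (hJ h1) (ha i)

/-- `φ`-multiples: `φ a • x ∈ phiSub L 𝔞` for `a ∈ 𝔞`. -/
theorem phi_smul_mem_phiSub {𝔞 : Ideal (MvPowerSeries (Fin r) 𝒪)}
    {a : MvPowerSeries (Fin r) 𝒪} (ha : a ∈ 𝔞) (x : L.N) : L.φ a • x ∈ phiSub L 𝔞 := by
  obtain ⟨c, rfl⟩ := L.b_span x
  refine ⟨fun i => a * c i, fun i => 𝔞.mul_mem_right _ ha, ?_⟩
  rw [Finset.smul_sum]
  refine Finset.sum_congr rfl fun i _ => ?_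
  rw [smul_smul, map_mul]

/-- The index of `phiSub L 𝔞` is at most `#(Λ/𝔞)^d`. -/
theorem finite_quot_phiSub (𝔞 : Ideal (MvPowerSeries (Fin r) 𝒪))
    [Finite (MvPowerSeries (Fin r) 𝒪 ⧸ 𝔞)] :
    Finite (L.N ⧸ phiSub L 𝔞) ∧
      Nat.card (L.N ⧸ phiSub L 𝔞) ≤ Nat.card (Fin d → MvPowerSeries (Fin r) 𝒪 ⧸ 𝔞) := by
  -- a surjection `(Λ/𝔞)^d → N / phiSub`
  let F : (Fin d → MvPowerSeries (Fin r) 𝒪 ⧸ 𝔞) → L.N ⧸ phiSub L 𝔞 := fun c =>
    Submodule.Quotient.mk (∑ i, L.φ (Quotient.out (c i)) • L.b i)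
  have hF : Function.Surjective F := by
    intro y
    obtain ⟨x, rfl⟩ := Submodule.Quotient.mk_surjective _ y
    obtain ⟨c, rfl⟩ := L.b_span x
    refine ⟨fun i => Ideal.Quotient.mk 𝔞 (c i), ?_⟩
    refine (Submodule.Quotient.eq _).mpr ?_
    refine ⟨fun i => Quotient.out (Ideal.Quotient.mk 𝔞 (c i)) - c i, fun i => ?_, ?_⟩
    · rw [← Ideal.Quotient.eq]
      exact Quotient.out_eq _
    · simp only [map_sub, sub_smul, Finset.sum_sub_distrib]
  have hfin : Finite (L.N ⧸ phiSub L 𝔞) := Finite.of_surjective F hF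
  exact ⟨hfin, Nat.card_le_card_of_surjective F hF⟩

end Defs

section Kill

variable {A : Type*} [CommRing A] [IsLocalRing A] {Q : Type*} [AddCommGroup Q] [Module A Q]

/-- A finite module over a local ring is killed by `𝔪 ^ #Q`. -/
theorem pow_card_smul_top_eq_bot [Finite Q] :
    (maximalIdeal A ^ Nat.card Q) • (⊤ : Submodule A Q) = ⊥ := by
  have hnoeth : IsNoetherian A Q := isNoetherian_of_finite A Q
  set F : ℕ → Submodule A Q := fun i => (maximalIdeal A ^ i) • (⊤ : Submodule A Q) with hF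
  have hsucc : ∀ i, F (i + 1) = maximalIdeal A • F i := by
    intro i
    simp only [hF]
    rw [pow_succ', Submodule.mul_smul]
  have key : ∀ i, F i = ⊥ ∨ (F i : Set Q).ncard + i ≤ Nat.card Q := by
    intro i
    induction i with
    | zero =>
      right
      simp only [hF, pow_zero, Ideal.one_eq_top, Submodule.top_smul, Submodule.top_coe,
        add_zero]
      rw [Set.ncard_univ]
    | succ i ih =>
      rcases ih with h | h
      · left
        rw [hsucc, h, Submodule.smul_bot]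
      · by_cases hbot : F i = ⊥
        · left
          rw [hsucc, hbot, Submodule.smul_bot]
        · right
          have hle : F (i + 1) ≤ F i := by
            rw [hsucc]
            exact Submodule.smul_le_right
          have hne : F (i + 1) ≠ F i := by
            intro heq
            apply hbot
            refine Submodule.eq_bot_of_le_smul_of_le_jacobson_bot (maximalIdeal A) (F i)
              (IsNoetherian.noetherian _) ?_ ?_
            · rw [← hsucc, heq]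
            · rw [IsLocalRing.jacobson_eq_maximalIdeal ⊥ bot_ne_top]
          have hlt : (F (i + 1) : Set Q) ⊂ (F i : Set Q) :=
            (SetLike.coe_ssubset_coe).mpr (lt_of_le_of_ne hle hne)
          have := Set.ncard_lt_ncard hlt (Set.toFinite _)
          omega
  rcases key (Nat.card Q) with h | h
  · exact h
  · exfalso
    have h0 : (F (Nat.card Q) : Set Q).ncard = 0 := by omega
    rw [Set.ncard_eq_zero (Set.toFinite _)] at h0
    have : (0 : Q) ∈ (F (Nat.card Q) : Set Q) := (F (Nat.card Q)).zero_mem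
    rw [h0] at this
    exact this

/-- If `N ⧸ S` is finite of cardinality at most `K`, then `𝔪 ^ K • ⊤ ≤ S`. -/
theorem pow_smul_top_le_of_card_le {N : Type*} [AddCommGroup N] [Module A N]
    (S : Submodule A N) [Finite (N ⧸ S)] {K : ℕ} (hK : Nat.card (N ⧸ S) ≤ K) :
    (maximalIdeal A ^ K) • (⊤ : Submodule A N) ≤ S := by
  have h1 : (maximalIdeal A ^ K) • (⊤ : Submodule A N) ≤
      (maximalIdeal A ^ Nat.card (N ⧸ S)) • (⊤ : Submodule A N) :=
    Submodule.smul_mono_left (Ideal.pow_le_pow_right hK)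
  refine h1.trans ?_
  intro x hx
  have h2 : S.mkQ x ∈ (maximalIdeal A ^ Nat.card (N ⧸ S)) • (⊤ : Submodule A (N ⧸ S)) := by
    have h3 : S.mkQ x ∈ Submodule.map S.mkQ
        ((maximalIdeal A ^ Nat.card (N ⧸ S)) • (⊤ : Submodule A N)) :=
      Submodule.mem_map_of_mem hx
    rw [Submodule.map_smul''] at h3
    exact Submodule.smul_mono le_rfl le_top h3
  rw [pow_card_smul_top_eq_bot, Submodule.mem_bot] at h2
  exact (Submodule.Quotient.mk_eq_zero S).mp h2

end Kill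

section Local

variable {𝒪 : Type} [CommRing 𝒪] [IsLocalRing 𝒪] {r : ℕ} {R : Type} [CommRing R] [IsLocalRing R]
  [Algebra 𝒪 R] {M : Type} [AddCommGroup M] [Module R M] {J : Ideal (MvPowerSeries (Fin r) 𝒪)}
  {d : ℕ} (L : LevelD 𝒪 r R M J d)

theorem mem_span_range_X_iff (f : MvPowerSeries (Fin r) 𝒪) :
    f ∈ Ideal.span (Set.range fun i : Fin r => (X i : MvPowerSeries (Fin r) 𝒪)) ↔
      constantCoeff f = 0 := by
  classical
  have h := Fermat.Agent.S57.H90.mem_span_X_image_iff (Finset.univ : Finset (Fin r)) f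
  have e : (fun j : Fin r => (X j : MvPowerSeries (Fin r) 𝒪)) '' ((Finset.univ : Finset (Fin r)) :
      Set (Fin r)) = Set.range fun i : Fin r => (X i : MvPowerSeries (Fin r) 𝒪) := by
    rw [Finset.coe_univ, Set.image_univ]
  rw [e] at h
  rw [h]
  constructor
  · intro h'
    rw [← coeff_zero_eq_constantCoeff_apply]
    exact h' 0 (by simp)
  · intro h' m hm
    have : m = 0 := by
      ext j
      simpa using hm j (Finset.mem_univ j)
    rw [this, coeff_zero_eq_constantCoeff_apply, h']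

/-- `(F1)`: `φ` maps `𝔪 ^ m` into `𝔪 ^ m`. -/
theorem phi_mem_pow {m : ℕ} {f : MvPowerSeries (Fin r) 𝒪}
    (hf : f ∈ maximalIdeal (MvPowerSeries (Fin r) 𝒪) ^ m) :
    L.φ f ∈ maximalIdeal (MvPowerSeries (Fin r) 𝒪) ^ m := by
  have h1 : maximalIdeal (MvPowerSeries (Fin r) 𝒪) ≤
      (maximalIdeal (MvPowerSeries (Fin r) 𝒪)).comap
        (L.φ : MvPowerSeries (Fin r) 𝒪 →+* MvPowerSeries (Fin r) 𝒪) := fun g hg =>
    Fermat.Agent.S57.H93.algHom_mem_maximalIdeal L.φ hg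
  have h2 := Ideal.pow_right_mono h1 m
  exact Ideal.le_comap_pow _ m (h2 hf)

theorem psi_isLocalHom : IsLocalHom (L.ψ : MvPowerSeries (Fin r) 𝒪 →+* R) :=
  IsLocalHom.of_surjective _ L.ψ_surjective

theorem psi_mem {f : MvPowerSeries (Fin r) 𝒪}
    (hf : f ∈ maximalIdeal (MvPowerSeries (Fin r) 𝒪)) : L.ψ f ∈ maximalIdeal R := by
  have := psi_isLocalHom L
  rw [mem_maximalIdeal, mem_nonunits_iff] at hf ⊢
  intro h
  exact hf (this.map_nonunit f h)

/-- `(F2)`: `ψ` maps `𝔪 ^ m` into `𝔪_R ^ m`. -/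
theorem psi_mem_pow {m : ℕ} {f : MvPowerSeries (Fin r) 𝒪}
    (hf : f ∈ maximalIdeal (MvPowerSeries (Fin r) 𝒪) ^ m) : L.ψ f ∈ maximalIdeal R ^ m := by
  have h1 : maximalIdeal (MvPowerSeries (Fin r) 𝒪) ≤
      (maximalIdeal R).comap (L.ψ : MvPowerSeries (Fin r) 𝒪 →+* R) := fun g hg => psi_mem L hg
  have h2 := Ideal.pow_right_mono h1 m
  exact Ideal.le_comap_pow _ m (h2 hf)

/-- `(F2')`: `ψ` maps `𝔪 ^ m` onto `𝔪_R ^ m`. -/
theorem exists_psi_eq_of_mem_pow {m : ℕ} {a : R} (ha : a ∈ maximalIdeal R ^ m) :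
    ∃ f ∈ maximalIdeal (MvPowerSeries (Fin r) 𝒪) ^ m, L.ψ f = a := by
  have h1 : maximalIdeal R ≤ (maximalIdeal (MvPowerSeries (Fin r) 𝒪)).map
      (L.ψ : MvPowerSeries (Fin r) 𝒪 →+* R) := by
    intro x hx
    obtain ⟨f, rfl⟩ := L.ψ_surjective x
    refine Ideal.mem_map_of_mem _ ?_
    rw [mem_maximalIdeal, mem_nonunits_iff] at hx ⊢
    intro h
    exact hx (h.map L.ψ)
  have h2 : a ∈ (maximalIdeal (MvPowerSeries (Fin r) 𝒪) ^ m).map
      (L.ψ : MvPowerSeries (Fin r) 𝒪 →+* R) := by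
    rw [Ideal.map_pow]
    exact Ideal.pow_right_mono h1 m ha
  obtain ⟨f, hf, hfa⟩ := (Ideal.mem_map_iff_of_surjective
    (L.ψ : MvPowerSeries (Fin r) 𝒪 →+* R) L.ψ_surjective).mp h2
  exact ⟨f, hf, hfa⟩

/-- `(F6a)`: `π` maps `𝔪 ^ m • ⊤` into `𝔪_R ^ m • ⊤`. -/
theorem pi_mem {m : ℕ} {x : L.N}
    (hx : x ∈ (maximalIdeal (MvPowerSeries (Fin r) 𝒪) ^ m) •
      (⊤ : Submodule (MvPowerSeries (Fin r) 𝒪) L.N)) :
    L.π x ∈ (maximalIdeal R ^ m) • (⊤ : Submodule R M) := by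
  refine Submodule.smul_induction_on hx ?_ ?_
  · intro f hf y _
    rw [L.π_smul]
    exact Submodule.smul_mem_smul (psi_mem_pow L hf) Submodule.mem_top
  · intro x y hx hy
    rw [map_add]
    exact Submodule.add_mem _ hx hy

/-- `(F6b)`: `π` maps `𝔪 ^ m • ⊤` onto `𝔪_R ^ m • ⊤`. -/
theorem exists_pi_eq_of_mem {m : ℕ} {y : M}
    (hy : y ∈ (maximalIdeal R ^ m) • (⊤ : Submodule R M)) :
    ∃ x ∈ (maximalIdeal (MvPowerSeries (Fin r) 𝒪) ^ m) •
      (⊤ : Submodule (MvPowerSeries (Fin r) 𝒪) L.N), L.π x = y := by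
  refine Submodule.smul_induction_on hy ?_ ?_
  · intro a ha z _
    obtain ⟨f, hf, rfl⟩ := exists_psi_eq_of_mem_pow L ha
    obtain ⟨w, rfl⟩ := L.π_surjective z
    exact ⟨f • w, Submodule.smul_mem_smul hf Submodule.mem_top, L.π_smul f w⟩
  · rintro y z ⟨x, hx, rfl⟩ ⟨x', hx', rfl⟩
    exact ⟨x + x', Submodule.add_mem _ hx hx', map_add _ _ _⟩

/-- `(F3)`: `gen` maps `I • ⊤` into `I • ⊤`. -/
theorem gen_mem {I : Ideal (MvPowerSeries (Fin r) 𝒪)} {v : Fin d → MvPowerSeries (Fin r) 𝒪}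
    (hv : v ∈ I • (⊤ : Submodule (MvPowerSeries (Fin r) 𝒪) (Fin d → MvPowerSeries (Fin r) 𝒪))) :
    gen L v ∈ I • (⊤ : Submodule (MvPowerSeries (Fin r) 𝒪) L.N) := by
  have h3 : gen L v ∈ Submodule.map (gen L)
      (I • (⊤ : Submodule (MvPowerSeries (Fin r) 𝒪) (Fin d → MvPowerSeries (Fin r) 𝒪))) :=
    Submodule.mem_map_of_mem hv
  rw [Submodule.map_smul''] at h3
  exact Submodule.smul_mono le_rfl le_top h3

/-- The kernel of `π` consists of `φ`-multiples of the ideal of the variables. -/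
theorem ker_pi_le_phiSub {x : L.N} (hx : L.π x = 0) :
    x ∈ phiSub L (Ideal.span (Set.range fun i : Fin r => (X i : MvPowerSeries (Fin r) 𝒪))) := by
  have h1 := (L.ker_π x).mp hx
  have h2 : ∀ a ∈ Ideal.span (Set.range fun i : Fin r => L.φ (MvPowerSeries.X i)),
      ∀ y : L.N, a • y ∈
        phiSub L (Ideal.span (Set.range fun i : Fin r => (X i : MvPowerSeries (Fin r) 𝒪))) := by
    intro a ha
    induction ha using Submodule.span_induction with
    | mem a ha =>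
      obtain ⟨j, rfl⟩ := ha
      intro y
      exact phi_smul_mem_phiSub L (Ideal.subset_span (Set.mem_range_self j)) y
    | zero => intro y; rw [zero_smul]; exact Submodule.zero_mem _
    | add a b _ _ ha hb => intro y; rw [add_smul]; exact Submodule.add_mem _ (ha y) (hb y)
    | smul s a _ ha =>
      intro y
      rw [smul_eq_mul, mul_smul]
      exact Submodule.smul_mem _ _ (ha y)
  exact Submodule.smul_le.mpr (fun a ha y _ => h2 a ha y) h1

/-- `ψ ∘ φ` is the constant coefficient. -/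
theorem psi_phi (f : MvPowerSeries (Fin r) 𝒪) :
    L.ψ (L.φ f) = algebraMap 𝒪 R (constantCoeff f) := by
  have h1 : f - C (constantCoeff f) ∈
      Ideal.span (Set.range fun i : Fin r => (X i : MvPowerSeries (Fin r) 𝒪)) := by
    rw [mem_span_range_X_iff, map_sub, constantCoeff_C, sub_self]
  have h2 : Ideal.span (Set.range fun i : Fin r => (X i : MvPowerSeries (Fin r) 𝒪)) ≤
      RingHom.ker ((L.ψ : MvPowerSeries (Fin r) 𝒪 →+* R).comp
        (L.φ : MvPowerSeries (Fin r) 𝒪 →+* MvPowerSeries (Fin r) 𝒪)) := by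
    rw [Ideal.span_le]
    rintro _ ⟨j, rfl⟩
    exact L.ψ_φ_X j
  have h3 := h2 h1
  rw [RingHom.mem_ker, RingHom.comp_apply] at h3
  simp only [AlgHom.coe_toRingHom, map_sub] at h3
  have h4 : (C (constantCoeff f) : MvPowerSeries (Fin r) 𝒪) =
      algebraMap 𝒪 (MvPowerSeries (Fin r) 𝒪) (constantCoeff f) := by
    rw [MvPowerSeries.algebraMap_apply, Algebra.algebraMap_self, RingHom.id_apply]
  rw [h4, L.φ.commutes, L.ψ.commutes, sub_eq_zero] at h3
  exact h3

/-- `(F7)`: `M` is free of rank `d` over `𝒪`. -/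
theorem finrank_eq [Module 𝒪 M] [IsScalarTower 𝒪 R M] (L : LevelD 𝒪 r R M J d)
    (hJ : J ≤ Ideal.span (Set.range fun i : Fin r => (X i : MvPowerSeries (Fin r) 𝒪))) :
    Module.finrank 𝒪 M = d := by
  let E : (Fin d → 𝒪) →ₗ[𝒪] M := Fintype.linearCombination 𝒪 (fun i => L.π (L.b i))
  have hE : ∀ c : Fin d → 𝒪, E c = L.π (∑ i, L.φ (C (c i)) • L.b i) := by
    intro c
    rw [Fintype.linearCombination_apply, map_sum]
    refine Finset.sum_congr rfl fun i _ => ?_
    rw [L.π_smul, psi_phi, constantCoeff_C, algebraMap_smul]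
  have hinj : Function.Injective E := by
    rw [injective_iff_map_eq_zero]
    intro c hc
    rw [hE] at hc
    have h1 := ker_pi_le_phiSub L hc
    funext i
    have h2 := mem_of_sum_mem_phiSub L hJ (fun i => C (c i)) h1 i
    rw [mem_span_range_X_iff, constantCoeff_C] at h2
    exact h2
  have hsurj : Function.Surjective E := by
    intro y
    obtain ⟨x, rfl⟩ := L.π_surjective y
    obtain ⟨c, rfl⟩ := L.b_span x
    refine ⟨fun i => constantCoeff (c i), ?_⟩
    rw [Fintype.linearCombination_apply, map_sum]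
    refine Finset.sum_congr rfl fun i _ => ?_
    rw [L.π_smul, psi_phi, algebraMap_smul]
  have e : (Fin d → 𝒪) ≃ₗ[𝒪] M := LinearEquiv.ofBijective E ⟨hinj, hsurj⟩
  rw [← e.finrank_eq, Module.finrank_fin_fun]

/-- `M` is a finite `R`-module. -/
theorem moduleFinite (L : LevelD 𝒪 r R M J d) : Module.Finite R M := by
  let E : (Fin d → R) →ₗ[R] M := Fintype.linearCombination R (fun i => L.π (L.b i))
  have hsurj : Function.Surjective E := by
    intro y
    obtain ⟨x, rfl⟩ := L.π_surjective y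
    obtain ⟨c, rfl⟩ := L.b_span x
    refine ⟨fun i => L.ψ (L.φ (c i)), ?_⟩
    rw [Fintype.linearCombination_apply, map_sum]
    refine Finset.sum_congr rfl fun i _ => ?_
    rw [L.π_smul]
  exact Module.Finite.of_surjective E hsurj

end Local

section J

variable {𝒪 : Type} [CommRing 𝒪] [IsLocalRing 𝒪] (r : ℕ)

/-- the relation ideals of a patching datum. -/
noncomputable def relIdeal (p n : ℕ) : Ideal (MvPowerSeries (Fin r) 𝒪) :=
  Ideal.span (Set.range fun j : Fin r =>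
    ((1 + MvPowerSeries.X j) ^ (p ^ n) - 1 : MvPowerSeries (Fin r) 𝒪))

theorem relIdeal_le_span_X (p n : ℕ) :
    relIdeal (𝒪 := 𝒪) r p n ≤
      Ideal.span (Set.range fun i : Fin r => (X i : MvPowerSeries (Fin r) 𝒪)) := by
  rw [relIdeal, Ideal.span_le]
  rintro _ ⟨j, rfl⟩
  rw [SetLike.mem_coe, mem_span_range_X_iff]
  simp

theorem one_add_pow_sub_one_mem {A : Type*} [CommRing A] (I : Ideal A) {p : ℕ}
    (hp : (p : A) ∈ I) {a : A} (ha : a ∈ I) (n : ℕ) : (1 + a) ^ (p ^ n) - 1 ∈ I ^ (n + 1) := by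
  induction n with
  | zero => simpa using ha
  | succ n ih =>
    have hpn : p ^ (n + 1) = p ^ n * p := pow_succ p n
    rw [hpn, pow_mul]
    set y := (1 + a) ^ p ^ n with hy
    -- `y ^ p - 1 = (y - 1) * ∑ i < p, y ^ i`
    have h1 : y ^ p - 1 = (y - 1) * ∑ i ∈ Finset.range p, y ^ i := by
      rw [mul_comm]
      exact (geom_sum_mul y p).symm
    have h2 : ∑ i ∈ Finset.range p, y ^ i ∈ I := by
      have h3 : ∀ i : ℕ, y ^ i - 1 ∈ I := by
        intro i
        have hy1 : y - 1 ∈ I := by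
          have := Ideal.pow_le_self (Nat.succ_ne_zero n) ih
          exact this
        have : y ^ i - 1 = (y - 1) * ∑ k ∈ Finset.range i, y ^ k := by
          rw [mul_comm]
          exact (geom_sum_mul y i).symm
        rw [this]
        exact I.mul_mem_right _ hy1
      have h4 : ∑ i ∈ Finset.range p, y ^ i =
          ∑ i ∈ Finset.range p, (y ^ i - 1) + (p : A) := by
        rw [Finset.sum_sub_distrib]
        simp
      rw [h4]
      exact I.add_mem (I.sum_mem fun i _ => h3 i) hp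
    rw [h1, pow_succ (n := n + 1)]
    exact Ideal.mul_mem_mul ih h2

/-- `[J]`: the `n`-th relation ideal lies in `𝔪 ^ (n + 1)`. -/
theorem relIdeal_le_pow {p : ℕ} (hp : (p : 𝒪) ∈ maximalIdeal 𝒪) (n : ℕ) :
    relIdeal (𝒪 := 𝒪) r p n ≤ maximalIdeal (MvPowerSeries (Fin r) 𝒪) ^ (n + 1) := by
  rw [relIdeal, Ideal.span_le]
  rintro _ ⟨j, rfl⟩
  refine one_add_pow_sub_one_mem _ ?_ ?_ n
  · have h1 : ((p : ℕ) : MvPowerSeries (Fin r) 𝒪) = C ((p : ℕ) : 𝒪) := by
      rw [map_natCast]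
    rw [h1, mem_maximalIdeal, mem_nonunits_iff, MvPowerSeries.isUnit_iff_constantCoeff,
      constantCoeff_C]
    exact (mem_maximalIdeal _).mp hp
  · rw [mem_maximalIdeal, mem_nonunits_iff, MvPowerSeries.isUnit_iff_constantCoeff,
      constantCoeff_X]
    exact not_isUnit_zero

end J

end Fermat.Agent.S59.Patch
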