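import Mathlib

/-!
# S59 / PATCH (helper53): ultrafilter limits in adically complete modules with finite quotients

For a module `M` over `R`, adically complete for an ideal `I`, with all `M ⧸ I ^ m • ⊤` finite
(a profinite module), every sequence `u : ℕ → M` has a unique limit along an ultrafilter `𝔘`:
`ulim I 𝔘 u`, characterised by `∀ m, ∀ᶠ n in 𝔘, u n - ulim I 𝔘 u ∈ I ^ m • ⊤`.
-/

set_option autoImplicit false
set_option linter.style.haveILetI false

namespace Fermat.Agent.S59.Patch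

open Filter

variable {R : Type*} [CommRing R] (I : Ideal R) (M : Type*) [AddCommGroup M] [Module R M]

/-- All quotients `M ⧸ I ^ m • ⊤` are finite. -/
class FinQuot : Prop where
  fin : ∀ m : ℕ, Finite (M ⧸ (I ^ m • ⊤ : Submodule R M))

variable {M}

theorem exists_ulim [IsPrecomplete I M] [FinQuot I M] (𝔘 : Ultrafilter ℕ) (u : ℕ → M) :
    ∃ L : M, ∀ m : ℕ, ∀ᶠ n in (𝔘 : Filter ℕ), u n - L ∈ (I ^ m • ⊤ : Submodule R M) := by
  have h1 : ∀ m : ℕ, ∃ a : M, ∀ᶠ n in (𝔘 : Filter ℕ),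
      u n - a ∈ (I ^ m • ⊤ : Submodule R M) := by
    intro m
    have : Finite (M ⧸ (I ^ m • ⊤ : Submodule R M)) := FinQuot.fin m
    obtain ⟨c, hc⟩ := Ultrafilter.eq_pure_of_finite
      (𝔘.map (fun n => (Submodule.Quotient.mk (u n) : M ⧸ (I ^ m • ⊤ : Submodule R M))))
    obtain ⟨a, rfl⟩ := Submodule.Quotient.mk_surjective _ c
    refine ⟨a, ?_⟩
    have h2 : ({Submodule.Quotient.mk a} : Set (M ⧸ (I ^ m • ⊤ : Submodule R M))) ∈
        (𝔘.map (fun n => (Submodule.Quotient.mk (u n) : M ⧸ (I ^ m • ⊤ : Submodule R M)))) := by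
      rw [hc]
      exact Ultrafilter.mem_pure.mpr rfl
    rw [Ultrafilter.mem_map] at h2
    refine Filter.mem_of_superset h2 ?_
    intro n hn
    simp only [Set.mem_preimage, Set.mem_singleton_iff] at hn
    exact (Submodule.Quotient.eq _).mp hn
  choose a ha using h1
  have hcauchy : ∀ {m n : ℕ}, m ≤ n → a m ≡ a n [SMOD (I ^ m • ⊤ : Submodule R M)] := by
    intro m n hmn
    obtain ⟨k, hk1, hk2⟩ := ((ha m).and (ha n)).exists
    have hk2' : u k - a n ∈ (I ^ m • ⊤ : Submodule R M) :=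
      Submodule.smul_mono_left (Ideal.pow_le_pow_right hmn) hk2
    rw [SModEq.sub_mem]
    have : a m - a n = (u k - a n) - (u k - a m) := by abel
    rw [this]
    exact Submodule.sub_mem _ hk2' hk1
  obtain ⟨L, hL⟩ := IsPrecomplete.prec ‹IsPrecomplete I M› hcauchy
  refine ⟨L, fun m => ?_⟩
  filter_upwards [ha m] with n hn
  have h3 : a m - L ∈ (I ^ m • ⊤ : Submodule R M) := SModEq.sub_mem.mp (hL m)
  have : u n - L = (u n - a m) + (a m - L) := by abel
  rw [this]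
  exact Submodule.add_mem _ hn h3

/-- The limit of `u` along the ultrafilter `𝔘`. -/
noncomputable def ulim [IsPrecomplete I M] [FinQuot I M] (𝔘 : Ultrafilter ℕ) (u : ℕ → M) : M :=
  Classical.choose (exists_ulim I 𝔘 u)

theorem ulim_spec [IsPrecomplete I M] [FinQuot I M] (𝔘 : Ultrafilter ℕ) (u : ℕ → M) (m : ℕ) :
    ∀ᶠ n in (𝔘 : Filter ℕ), u n - ulim I 𝔘 u ∈ (I ^ m • ⊤ : Submodule R M) :=
  Classical.choose_spec (exists_ulim I 𝔘 u) m

theorem eq_of_forall_mem [IsHausdorff I M] {x y : M}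
    (h : ∀ m : ℕ, x - y ∈ (I ^ m • ⊤ : Submodule R M)) : x = y := by
  have := IsHausdorff.haus ‹IsHausdorff I M› (x - y) (fun n => by
    rw [SModEq.sub_mem, sub_zero]; exact h n)
  exact sub_eq_zero.mp this

/-- Uniqueness of ultrafilter limits (frequently suffices). -/
theorem ulim_eq_of_frequently [IsAdicComplete I M] [FinQuot I M] (𝔘 : Ultrafilter ℕ)
    (u : ℕ → M) (L : M)
    (h : ∀ m : ℕ, ∃ᶠ n in (𝔘 : Filter ℕ), u n - L ∈ (I ^ m • ⊤ : Submodule R M)) :
    ulim I 𝔘 u = L := by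
  apply eq_of_forall_mem I
  intro m
  obtain ⟨n, hn1, hn2⟩ := ((h m).and_eventually (ulim_spec I 𝔘 u m)).exists
  have : ulim I 𝔘 u - L = (u n - L) - (u n - ulim I 𝔘 u) := by abel
  rw [this]
  exact Submodule.sub_mem _ hn1 hn2

theorem ulim_eq [IsAdicComplete I M] [FinQuot I M] (𝔘 : Ultrafilter ℕ)
    (u : ℕ → M) (L : M)
    (h : ∀ m : ℕ, ∀ᶠ n in (𝔘 : Filter ℕ), u n - L ∈ (I ^ m • ⊤ : Submodule R M)) :
    ulim I 𝔘 u = L :=
  ulim_eq_of_frequently I 𝔘 u L (fun m => (h m).frequently)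

theorem ulim_const [IsAdicComplete I M] [FinQuot I M] (𝔘 : Ultrafilter ℕ) (c : M) :
    ulim I 𝔘 (fun _ => c) = c :=
  ulim_eq I 𝔘 _ c (fun m => Filter.Eventually.of_forall fun _ => by
    rw [sub_self]; exact Submodule.zero_mem _)

theorem ulim_add [IsAdicComplete I M] [FinQuot I M] (𝔘 : Ultrafilter ℕ) (u v : ℕ → M) :
    ulim I 𝔘 (fun n => u n + v n) = ulim I 𝔘 u + ulim I 𝔘 v := by
  refine ulim_eq I 𝔘 _ _ (fun m => ?_)
  filter_upwards [ulim_spec I 𝔘 u m, ulim_spec I 𝔘 v m] with n h1 h2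
  have : u n + v n - (ulim I 𝔘 u + ulim I 𝔘 v) = (u n - ulim I 𝔘 u) + (v n - ulim I 𝔘 v) := by
    abel
  rw [this]
  exact Submodule.add_mem _ h1 h2

theorem ulim_sub [IsAdicComplete I M] [FinQuot I M] (𝔘 : Ultrafilter ℕ) (u v : ℕ → M) :
    ulim I 𝔘 (fun n => u n - v n) = ulim I 𝔘 u - ulim I 𝔘 v := by
  refine ulim_eq I 𝔘 _ _ (fun m => ?_)
  filter_upwards [ulim_spec I 𝔘 u m, ulim_spec I 𝔘 v m] with n h1 h2
  have : u n - v n - (ulim I 𝔘 u - ulim I 𝔘 v) = (u n - ulim I 𝔘 u) - (v n - ulim I 𝔘 v) := by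
    abel
  rw [this]
  exact Submodule.sub_mem _ h1 h2

/-- Sequences which are eventually close have the same limit. -/
theorem ulim_congr_close [IsAdicComplete I M] [FinQuot I M] (𝔘 : Ultrafilter ℕ) (u v : ℕ → M)
    (h : ∀ m : ℕ, ∀ᶠ n in (𝔘 : Filter ℕ), u n - v n ∈ (I ^ m • ⊤ : Submodule R M)) :
    ulim I 𝔘 u = ulim I 𝔘 v := by
  refine ulim_eq I 𝔘 _ _ (fun m => ?_)
  filter_upwards [h m, ulim_spec I 𝔘 v m] with n h1 h2
  have : u n - ulim I 𝔘 v = (u n - v n) + (v n - ulim I 𝔘 v) := by abel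
  rw [this]
  exact Submodule.add_mem _ h1 h2

/-- Closed submodules `I ^ m • ⊤` contain the limits of their sequences. -/
theorem ulim_mem [IsAdicComplete I M] [FinQuot I M] (𝔘 : Ultrafilter ℕ) (u : ℕ → M) (m : ℕ)
    (h : ∃ᶠ n in (𝔘 : Filter ℕ), u n ∈ (I ^ m • ⊤ : Submodule R M)) :
    ulim I 𝔘 u ∈ (I ^ m • ⊤ : Submodule R M) := by
  obtain ⟨n, hn1, hn2⟩ := (h.and_eventually (ulim_spec I 𝔘 u m)).exists
  have : ulim I 𝔘 u = u n - (u n - ulim I 𝔘 u) := by abel
  rw [this]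
  exact Submodule.sub_mem _ hn1 hn2

/-- The limit is zero if the sequence tends to zero. -/
theorem ulim_eq_zero [IsAdicComplete I M] [FinQuot I M] (𝔘 : Ultrafilter ℕ) (u : ℕ → M)
    (h : ∀ m : ℕ, ∃ᶠ n in (𝔘 : Filter ℕ), u n ∈ (I ^ m • ⊤ : Submodule R M)) :
    ulim I 𝔘 u = 0 :=
  ulim_eq_of_frequently I 𝔘 u 0 (fun m => by simpa using h m)

theorem mem_pow_smul_top_iff {m : ℕ} {x : R} :
    x ∈ (I ^ m • ⊤ : Submodule R R) ↔ x ∈ I ^ m := by
  rw [Ideal.smul_top_eq_map, Algebra.algebraMap_self, Ideal.map_id]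
  rfl

theorem ulim_smul [IsAdicComplete I R] [FinQuot I R] [IsAdicComplete I M] [FinQuot I M]
    (𝔘 : Ultrafilter ℕ) (a : ℕ → R) (u : ℕ → M) :
    ulim I 𝔘 (fun n => a n • u n) = ulim I 𝔘 a • ulim I 𝔘 u := by
  refine ulim_eq I 𝔘 _ _ (fun m => ?_)
  filter_upwards [ulim_spec I 𝔘 a m, ulim_spec I 𝔘 u m] with n h1 h2
  have : a n • u n - ulim I 𝔘 a • ulim I 𝔘 u =
      (a n - ulim I 𝔘 a) • u n + ulim I 𝔘 a • (u n - ulim I 𝔘 u) := by
    rw [sub_smul, smul_sub]; abel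
  rw [this]
  refine Submodule.add_mem _ ?_ (Submodule.smul_mem _ _ h2)
  exact Submodule.smul_mem_smul ((mem_pow_smul_top_iff I).mp h1) Submodule.mem_top

theorem ulim_mul [IsAdicComplete I R] [FinQuot I R] (𝔘 : Ultrafilter ℕ) (a b : ℕ → R) :
    ulim I 𝔘 (fun n => a n * b n) = ulim I 𝔘 a * ulim I 𝔘 b := by
  have := ulim_smul I 𝔘 a b
  simpa only [smul_eq_mul] using this

theorem ulim_spec' [IsPrecomplete I R] [FinQuot I R] (𝔘 : Ultrafilter ℕ) (a : ℕ → R) (m : ℕ) :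
    ∀ᶠ n in (𝔘 : Filter ℕ), a n - ulim I 𝔘 a ∈ I ^ m := by
  filter_upwards [ulim_spec I 𝔘 a m] with n hn
  exact (mem_pow_smul_top_iff I).mp hn

theorem ulim_eq' [IsAdicComplete I R] [FinQuot I R] (𝔘 : Ultrafilter ℕ)
    (a : ℕ → R) (L : R)
    (h : ∀ m : ℕ, ∃ᶠ n in (𝔘 : Filter ℕ), a n - L ∈ I ^ m) :
    ulim I 𝔘 a = L :=
  ulim_eq_of_frequently I 𝔘 a L (fun m => (h m).mono fun _ hn => (mem_pow_smul_top_iff I).mpr hn)

/-- A local noetherian ring with finite residue field has finite quotients by the powers of its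
maximal ideal. -/
theorem finQuot_of_isLocalRing (A : Type*) [CommRing A] [IsLocalRing A] [IsNoetherianRing A]
    [Finite (IsLocalRing.ResidueField A)] : FinQuot (IsLocalRing.maximalIdeal A) A where
  fin m := by
    have h : Finite (A ⧸ (IsLocalRing.maximalIdeal A) ^ m) :=
      IsLocalRing.finite_quotient_iff.mpr ⟨m, le_rfl⟩
    have e : (IsLocalRing.maximalIdeal A ^ m • ⊤ : Submodule A A) =
        (IsLocalRing.maximalIdeal A) ^ m := by
      ext x
      exact mem_pow_smul_top_iff _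
    rw [e]
    exact h

/-- A finite module over a ring with finite quotients has finite quotients. -/
theorem finQuot_of_finite [FinQuot I R] [Module.Finite R M] : FinQuot I M where
  fin m := by
    have hR : Finite (R ⧸ I ^ m) := by
      have h := FinQuot.fin (I := I) (M := R) m
      have e : (I ^ m • ⊤ : Submodule R R) = I ^ m := by
        ext x
        exact mem_pow_smul_top_iff _
      rw [e] at h
      exact h
    -- `M ⧸ I ^ m • ⊤` is a finite module over the finite ring `R ⧸ I ^ m`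
    letI : Module (R ⧸ I ^ m) (M ⧸ (I ^ m • ⊤ : Submodule R M)) :=
      Module.instQuotientIdealSubmoduleHSMulTop M (I ^ m)
    have : Module.Finite (R ⧸ I ^ m) (M ⧸ (I ^ m • ⊤ : Submodule R M)) := by
      have h1 : Module.Finite R (M ⧸ (I ^ m • ⊤ : Submodule R M)) := inferInstance
      exact Module.Finite.of_restrictScalars_finite R _ _
    exact Module.finite_of_finite (R ⧸ I ^ m)

end Fermat.Agent.S59.Patch
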