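import Mathlib
import Fermat.Prelude.Def_Algebra_PatchingDatum
import Fermat.Agent.S59.Patch.ULim
import Fermat.Agent.S59.Patch.Level

/-!
# S59 / PATCH (helper53): the limit of a sequence of patching levels along an ultrafilter

Given patching levels `L n` (all of rank `d`) with relation ideals `J n ≤ 𝔪 ^ (n + 1)`, and a
non-principal ultrafilter `𝔘` on `ℕ`, we construct a patching level with relation ideal `⊥`:
* `φ∞ w = lim_𝔘 φ_n w`, `ψ∞ w = lim_𝔘 ψ_n w` (pointwise limits in the profinite rings `Λ`, `R`);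
* `N∞ = Λ^d ⧸ K∞`, `K∞ = {v | ∀ m, ∀ᶠ n in 𝔘, gen_n v ∈ 𝔪 ^ m • N_n}`;
* `π∞ [v] = lim_𝔘 π_n (gen_n v)`.
-/

set_option autoImplicit false
set_option linter.style.haveILetI false
set_option linter.unusedSectionVars false

namespace Fermat.Agent.S59.Patch

open IsLocalRing MvPowerSeries Filter

section Limit

variable {𝒪 : Type} [CommRing 𝒪] [IsLocalRing 𝒪]
  {r : ℕ} {R : Type} [CommRing R] [IsLocalRing R] [Algebra 𝒪 R]
  {M : Type} [AddCommGroup M] [Module R M] {d : ℕ}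
  [IsAdicComplete (maximalIdeal (MvPowerSeries (Fin r) 𝒪)) (MvPowerSeries (Fin r) 𝒪)]
  [FinQuot (maximalIdeal (MvPowerSeries (Fin r) 𝒪)) (MvPowerSeries (Fin r) 𝒪)]
  [IsAdicComplete (maximalIdeal (MvPowerSeries (Fin r) 𝒪)) (Fin d → MvPowerSeries (Fin r) 𝒪)]
  [FinQuot (maximalIdeal (MvPowerSeries (Fin r) 𝒪)) (Fin d → MvPowerSeries (Fin r) 𝒪)]
  [IsAdicComplete (maximalIdeal R) R] [FinQuot (maximalIdeal R) R]
  [IsAdicComplete (maximalIdeal R) M] [FinQuot (maximalIdeal R) M]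
  {J : ℕ → Ideal (MvPowerSeries (Fin r) 𝒪)} (L : ∀ n, LevelD 𝒪 r R M (J n) d)
  (𝔘 : Ultrafilter ℕ)

/-- `φ∞`, as a function. -/
noncomputable def phiLim (w : MvPowerSeries (Fin r) 𝒪) : MvPowerSeries (Fin r) 𝒪 :=
  ulim (maximalIdeal (MvPowerSeries (Fin r) 𝒪)) 𝔘 (fun n => (L n).φ w)

/-- `ψ∞`, as a function. -/
noncomputable def psiLim (w : MvPowerSeries (Fin r) 𝒪) : R :=
  ulim (maximalIdeal R) 𝔘 (fun n => (L n).ψ w)

/-- `φ∞`. -/
noncomputable def phiInf : MvPowerSeries (Fin r) 𝒪 →ₐ[𝒪] MvPowerSeries (Fin r) 𝒪 where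
  toFun := phiLim L 𝔘
  map_one' := by
    simp only [phiLim, map_one]
    exact ulim_const _ 𝔘 1
  map_mul' a b := by
    simp only [phiLim, map_mul]
    exact ulim_mul _ 𝔘 _ _
  map_zero' := by
    simp only [phiLim, map_zero]
    exact ulim_const _ 𝔘 0
  map_add' a b := by
    simp only [phiLim, map_add]
    exact ulim_add _ 𝔘 _ _
  commutes' c := by
    simp only [phiLim, AlgHom.commutes]
    exact ulim_const _ 𝔘 _

/-- `ψ∞`. -/
noncomputable def psiInf : MvPowerSeries (Fin r) 𝒪 →ₐ[𝒪] R where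
  toFun := psiLim L 𝔘
  map_one' := by
    simp only [psiLim, map_one]
    exact ulim_const _ 𝔘 1
  map_mul' a b := by
    simp only [psiLim, map_mul]
    exact ulim_mul _ 𝔘 _ _
  map_zero' := by
    simp only [psiLim, map_zero]
    exact ulim_const _ 𝔘 0
  map_add' a b := by
    simp only [psiLim, map_add]
    exact ulim_add _ 𝔘 _ _
  commutes' c := by
    simp only [psiLim, AlgHom.commutes]
    exact ulim_const _ 𝔘 _

theorem phiInf_apply (w : MvPowerSeries (Fin r) 𝒪) :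
    phiInf L 𝔘 w = ulim (maximalIdeal (MvPowerSeries (Fin r) 𝒪)) 𝔘 (fun n => (L n).φ w) := rfl

theorem psiInf_apply (w : MvPowerSeries (Fin r) 𝒪) :
    psiInf L 𝔘 w = ulim (maximalIdeal R) 𝔘 (fun n => (L n).ψ w) := rfl

/-- `(I1)` -/
theorem phi_close (w : MvPowerSeries (Fin r) 𝒪) (m : ℕ) :
    ∀ᶠ n in (𝔘 : Filter ℕ), (L n).φ w - phiInf L 𝔘 w ∈
      maximalIdeal (MvPowerSeries (Fin r) 𝒪) ^ m :=
  ulim_spec' _ 𝔘 _ m

/-- `(I2)` -/
theorem psi_close (w : MvPowerSeries (Fin r) 𝒪) (m : ℕ) :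
    ∀ᶠ n in (𝔘 : Filter ℕ), (L n).ψ w - psiInf L 𝔘 w ∈ maximalIdeal R ^ m :=
  ulim_spec' _ 𝔘 _ m

/-- `(V1)`: `ψ∞` is surjective. -/
theorem psiInf_surjective : Function.Surjective (psiInf L 𝔘) := by
  intro y
  have h1 : ∀ n, ∃ w, (L n).ψ w = y := fun n => (L n).ψ_surjective y
  choose w hw using h1
  refine ⟨ulim (maximalIdeal (MvPowerSeries (Fin r) 𝒪)) 𝔘 w, ?_⟩
  rw [psiInf_apply]
  refine ulim_eq' _ 𝔘 _ _ (fun m => Eventually.frequently ?_)
  filter_upwards [ulim_spec' (maximalIdeal (MvPowerSeries (Fin r) 𝒪)) 𝔘 w m] with n hn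
  have h2 : (L n).ψ (ulim (maximalIdeal (MvPowerSeries (Fin r) 𝒪)) 𝔘 w) - y =
      - (L n).ψ (w n - ulim (maximalIdeal (MvPowerSeries (Fin r) 𝒪)) 𝔘 w) := by
    rw [map_sub, hw n]; ring
  rw [h2]
  exact neg_mem (psi_mem_pow (L n) hn)

/-- `(V2)`: `ψ∞ (φ∞ X_i) = 0`. -/
theorem psiInf_phiInf_X (i : Fin r) : psiInf L 𝔘 (phiInf L 𝔘 (X i)) = 0 := by
  rw [psiInf_apply]
  refine ulim_eq' _ 𝔘 _ _ (fun m => Eventually.frequently ?_)
  filter_upwards [phi_close L 𝔘 (X i) m] with n hn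
  rw [sub_zero]
  have h2 : (L n).ψ (phiInf L 𝔘 (X i)) = - (L n).ψ ((L n).φ (X i) - phiInf L 𝔘 (X i)) := by
    rw [map_sub, (L n).ψ_φ_X i]; ring
  rw [h2]
  exact neg_mem (psi_mem_pow (L n) hn)

/-- `K∞`. -/
def Kinf : Submodule (MvPowerSeries (Fin r) 𝒪) (Fin d → MvPowerSeries (Fin r) 𝒪) where
  carrier := {v | ∀ m : ℕ, ∀ᶠ n in (𝔘 : Filter ℕ), gen (L n) v ∈
    (maximalIdeal (MvPowerSeries (Fin r) 𝒪) ^ m) •
      (⊤ : Submodule (MvPowerSeries (Fin r) 𝒪) (L n).N)}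
  zero_mem' := fun m => Eventually.of_forall fun n => by
    rw [map_zero]; exact Submodule.zero_mem _
  add_mem' := by
    intro v w hv hw m
    filter_upwards [hv m, hw m] with n h1 h2
    rw [map_add]
    exact Submodule.add_mem _ h1 h2
  smul_mem' := by
    intro c v hv m
    filter_upwards [hv m] with n h1
    rw [map_smul]
    exact Submodule.smul_mem _ _ h1

theorem mem_Kinf {v : Fin d → MvPowerSeries (Fin r) 𝒪} :
    v ∈ Kinf L 𝔘 ↔ ∀ m : ℕ, ∀ᶠ n in (𝔘 : Filter ℕ), gen (L n) v ∈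
      (maximalIdeal (MvPowerSeries (Fin r) 𝒪) ^ m) •
        (⊤ : Submodule (MvPowerSeries (Fin r) 𝒪) (L n).N) := Iff.rfl

/-- elements of `𝔪 ^ m • ⊤` for all `m`, up to `K∞`-many `n`, are in `K∞` -/
theorem mem_Kinf_of_close {v : Fin d → MvPowerSeries (Fin r) 𝒪}
    (w : ℕ → (Fin d → MvPowerSeries (Fin r) 𝒪))
    (h1 : ∀ m : ℕ, ∀ᶠ n in (𝔘 : Filter ℕ), v - w n ∈
      (maximalIdeal (MvPowerSeries (Fin r) 𝒪) ^ m) •
        (⊤ : Submodule (MvPowerSeries (Fin r) 𝒪) (Fin d → MvPowerSeries (Fin r) 𝒪)))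
    (h2 : ∀ m : ℕ, ∀ᶠ n in (𝔘 : Filter ℕ), gen (L n) (w n) ∈
      (maximalIdeal (MvPowerSeries (Fin r) 𝒪) ^ m) •
        (⊤ : Submodule (MvPowerSeries (Fin r) 𝒪) (L n).N)) :
    v ∈ Kinf L 𝔘 := by
  intro m
  filter_upwards [h1 m, h2 m] with n h3 h4
  have : gen (L n) v = gen (L n) (v - w n) + gen (L n) (w n) := by
    rw [← map_add, sub_add_cancel]
  rw [this]
  exact Submodule.add_mem _ (gen_mem (L n) h3) h4

/-- `π̃ : Λ^d → M`. -/
noncomputable def piLim : (Fin d → MvPowerSeries (Fin r) 𝒪) →+ M where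
  toFun v := ulim (maximalIdeal R) 𝔘 (fun n => (L n).π (gen (L n) v))
  map_zero' := by
    simp only [map_zero]
    exact ulim_const _ 𝔘 0
  map_add' v w := by
    simp only [map_add]
    exact ulim_add _ 𝔘 _ _

theorem piLim_apply (v : Fin d → MvPowerSeries (Fin r) 𝒪) :
    piLim L 𝔘 v = ulim (maximalIdeal R) 𝔘 (fun n => (L n).π (gen (L n) v)) := rfl

theorem piLim_smul (f : MvPowerSeries (Fin r) 𝒪) (v : Fin d → MvPowerSeries (Fin r) 𝒪) :
    piLim L 𝔘 (f • v) = psiInf L 𝔘 f • piLim L 𝔘 v := by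
  rw [piLim_apply, piLim_apply, psiInf_apply, ← ulim_smul]
  congr 1
  funext n
  rw [map_smul, (L n).π_smul]

theorem piLim_eq_zero_of_mem {v : Fin d → MvPowerSeries (Fin r) 𝒪} (hv : v ∈ Kinf L 𝔘) :
    piLim L 𝔘 v = 0 := by
  rw [piLim_apply]
  refine ulim_eq_zero _ 𝔘 _ (fun m => Eventually.frequently ?_)
  filter_upwards [hv m] with n hn
  exact pi_mem (L n) hn

/-- `N∞`. -/
abbrev Ninf : Type := (Fin d → MvPowerSeries (Fin r) 𝒪) ⧸ Kinf L 𝔘

/-- `π∞ : N∞ → M`. -/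
noncomputable def piInf : Ninf L 𝔘 →+ M :=
  QuotientAddGroup.lift (Kinf L 𝔘).toAddSubgroup (piLim L 𝔘)
    (fun _ hv => piLim_eq_zero_of_mem L 𝔘 hv)

theorem piInf_mk (v : Fin d → MvPowerSeries (Fin r) 𝒪) :
    piInf L 𝔘 (Submodule.Quotient.mk v) = piLim L 𝔘 v := rfl

/-- `(V3)` -/
theorem piInf_smul (f : MvPowerSeries (Fin r) 𝒪) (x : Ninf L 𝔘) :
    piInf L 𝔘 (f • x) = psiInf L 𝔘 f • piInf L 𝔘 x := by
  obtain ⟨v, rfl⟩ := Submodule.Quotient.mk_surjective _ x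
  rw [← Submodule.Quotient.mk_smul, piInf_mk, piInf_mk, piLim_smul]

/-- `(V4)` -/
theorem piInf_surjective : Function.Surjective (piInf L 𝔘) := by
  intro y
  have h1 : ∀ n, ∃ v, (L n).π (gen (L n) v) = y := fun n => by
    obtain ⟨x, hx⟩ := (L n).π_surjective y
    obtain ⟨v, rfl⟩ := gen_surjective (L n) x
    exact ⟨v, hx⟩
  choose v hv using h1
  refine ⟨Submodule.Quotient.mk
    (ulim (maximalIdeal (MvPowerSeries (Fin r) 𝒪)) 𝔘 v), ?_⟩
  rw [piInf_mk, piLim_apply]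
  refine ulim_eq _ 𝔘 _ _ (fun m => ?_)
  filter_upwards [ulim_spec (maximalIdeal (MvPowerSeries (Fin r) 𝒪)) 𝔘 v m] with n hn
  have h2 : (L n).π (gen (L n) (ulim (maximalIdeal (MvPowerSeries (Fin r) 𝒪)) 𝔘 v)) - y =
      - (L n).π (gen (L n) (v n - ulim (maximalIdeal (MvPowerSeries (Fin r) 𝒪)) 𝔘 v)) := by
    rw [map_sub, map_sub, hv n]; abel
  rw [h2]
  exact neg_mem (pi_mem (L n) (gen_mem (L n) hn))

/-- `(H1)`: membership in `I • ⊤` of a finite power is componentwise. -/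
theorem mem_smul_top_pi_iff {A : Type*} [CommRing A] (I : Ideal A) {ι : Type*} [Fintype ι]
    [DecidableEq ι] (v : ι → A) :
    v ∈ I • (⊤ : Submodule A (ι → A)) ↔ ∀ i, v i ∈ I := by
  constructor
  · intro hv
    refine Submodule.smul_induction_on hv ?_ ?_
    · intro a ha w _ i
      rw [Pi.smul_apply, smul_eq_mul]
      exact I.mul_mem_right _ ha
    · intro x y hx hy i
      rw [Pi.add_apply]
      exact I.add_mem (hx i) (hy i)
  · intro hv
    rw [pi_eq_sum_univ v]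
    refine Submodule.sum_mem _ fun i _ => ?_
    exact Submodule.smul_mem_smul (hv i) Submodule.mem_top

/-- `(H3)`: elements of `span (range s) • ⊤` are combinations of the `s j`. -/
theorem exists_sum_of_mem_span_smul_top {A : Type*} [CommRing A] {N : Type*} [AddCommGroup N]
    [Module A N] {ι : Type*} [Fintype ι] (s : ι → A) {x : N}
    (hx : x ∈ (Ideal.span (Set.range s)) • (⊤ : Submodule A N)) :
    ∃ y : ι → N, x = ∑ j, s j • y j := by
  refine Submodule.smul_induction_on hx ?_ ?_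
  · intro a ha z _
    obtain ⟨c, rfl⟩ := (Ideal.mem_span_range_iff_exists_fun).mp ha
    refine ⟨fun j => c j • z, ?_⟩
    rw [Finset.sum_smul]
    refine Finset.sum_congr rfl fun j _ => ?_
    rw [smul_smul, mul_comm]
  · rintro x y ⟨a, rfl⟩ ⟨b, rfl⟩
    refine ⟨fun j => a j + b j, ?_⟩
    simp [smul_add, Finset.sum_add_distrib]

/-- `(H2)` -/
theorem phi_comp_close (c : ℕ → (Fin d → MvPowerSeries (Fin r) 𝒪)) (m : ℕ) :
    ∀ᶠ n in (𝔘 : Filter ℕ),
      ((fun i => (L n).φ (c n i)) - fun i => phiInf L 𝔘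
          (ulim (maximalIdeal (MvPowerSeries (Fin r) 𝒪)) 𝔘 c i)) ∈
        (maximalIdeal (MvPowerSeries (Fin r) 𝒪) ^ m) •
          (⊤ : Submodule (MvPowerSeries (Fin r) 𝒪) (Fin d → MvPowerSeries (Fin r) 𝒪)) := by
  classical
  have h1 : ∀ᶠ n in (𝔘 : Filter ℕ), ∀ i : Fin d,
      (L n).φ (ulim (maximalIdeal (MvPowerSeries (Fin r) 𝒪)) 𝔘 c i) -
        phiInf L 𝔘 (ulim (maximalIdeal (MvPowerSeries (Fin r) 𝒪)) 𝔘 c i) ∈
          maximalIdeal (MvPowerSeries (Fin r) 𝒪) ^ m :=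
    Filter.eventually_all.mpr fun i => phi_close L 𝔘 _ m
  filter_upwards [h1, ulim_spec (maximalIdeal (MvPowerSeries (Fin r) 𝒪)) 𝔘 c m] with n h2 h3
  rw [mem_smul_top_pi_iff] at h3 ⊢
  intro i
  have h4 := h3 i
  rw [Pi.sub_apply] at h4 ⊢
  have h5 : (L n).φ (c n i) - phiInf L 𝔘 (ulim (maximalIdeal (MvPowerSeries (Fin r) 𝒪)) 𝔘 c i) =
      (L n).φ (c n i - ulim (maximalIdeal (MvPowerSeries (Fin r) 𝒪)) 𝔘 c i) +
        ((L n).φ (ulim (maximalIdeal (MvPowerSeries (Fin r) 𝒪)) 𝔘 c i) -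
          phiInf L 𝔘 (ulim (maximalIdeal (MvPowerSeries (Fin r) 𝒪)) 𝔘 c i)) := by
    rw [map_sub]; ring
  rw [h5]
  exact Ideal.add_mem _ (phi_mem_pow (L n) h4) (h2 i)

/-- the class of `fun i => a i` is `∑ a i • b∞ i` -/
theorem mk_eq_sum (a : Fin d → MvPowerSeries (Fin r) 𝒪) :
    (Submodule.Quotient.mk a : Ninf L 𝔘) =
      ∑ i, a i • (Submodule.Quotient.mk (Pi.single i 1) : Ninf L 𝔘) := by
  classical
  conv_lhs => rw [pi_eq_sum_univ a]
  have h : ∀ i : Fin d, (fun j => if i = j then (1 : MvPowerSeries (Fin r) 𝒪) else 0) =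
      Pi.single i 1 := by
    intro i
    funext j
    rw [Pi.single_apply]
    by_cases hij : i = j
    · rw [if_pos hij, if_pos hij.symm]
    · rw [if_neg hij, if_neg (fun h => hij h.symm)]
  simp only [h]
  rw [← Submodule.mkQ_apply, map_sum]
  refine Finset.sum_congr rfl fun i _ => ?_
  rw [map_smul, Submodule.mkQ_apply]

/-- `(V6)` -/
theorem b_span_inf (x : Ninf L 𝔘) :
    ∃ c : Fin d → MvPowerSeries (Fin r) 𝒪,
      x = ∑ i, phiInf L 𝔘 (c i) • (Submodule.Quotient.mk (Pi.single i 1) : Ninf L 𝔘) := by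
  obtain ⟨v, rfl⟩ := Submodule.Quotient.mk_surjective _ x
  have h1 : ∀ n, ∃ c : Fin d → MvPowerSeries (Fin r) 𝒪,
      gen (L n) v = gen (L n) (fun i => (L n).φ (c i)) := fun n => by
    obtain ⟨c, hc⟩ := (L n).b_span (gen (L n) v)
    exact ⟨c, by rw [gen_phi, hc]⟩
  choose c hc using h1
  refine ⟨ulim (maximalIdeal (MvPowerSeries (Fin r) 𝒪)) 𝔘 c, ?_⟩
  rw [← mk_eq_sum L 𝔘 (fun i => phiInf L 𝔘
    (ulim (maximalIdeal (MvPowerSeries (Fin r) 𝒪)) 𝔘 c i))]
  refine (Submodule.Quotient.eq _).mpr ?_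
  refine mem_Kinf_of_close L 𝔘 (fun n => v - fun i => (L n).φ (c n i)) ?_ ?_
  · intro m
    filter_upwards [phi_comp_close L 𝔘 c m] with n hn
    have : (v - fun i => phiInf L 𝔘 (ulim (maximalIdeal (MvPowerSeries (Fin r) 𝒪)) 𝔘 c i)) -
        (v - fun i => (L n).φ (c n i)) =
        (fun i => (L n).φ (c n i)) - fun i => phiInf L 𝔘
          (ulim (maximalIdeal (MvPowerSeries (Fin r) 𝒪)) 𝔘 c i) := by abel
    rw [this]
    exact hn
  · intro m
    refine Eventually.of_forall fun n => ?_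
    rw [map_sub, hc n, sub_self]
    exact Submodule.zero_mem _

/-- `(V7)` -/
theorem b_rel_inf (h𝔘 : (𝔘 : Filter ℕ) ≤ atTop)
    (hJ : ∀ n, J n ≤ maximalIdeal (MvPowerSeries (Fin r) 𝒪) ^ (n + 1))
    (c : Fin d → MvPowerSeries (Fin r) 𝒪) :
    ∑ i, phiInf L 𝔘 (c i) • (Submodule.Quotient.mk (Pi.single i 1) : Ninf L 𝔘) = 0 ↔
      ∀ i, c i ∈ (⊥ : Ideal (MvPowerSeries (Fin r) 𝒪)) := by
  classical
  constructor
  · intro h i₀
    rw [← mk_eq_sum L 𝔘 (fun i => phiInf L 𝔘 (c i)), Submodule.Quotient.mk_eq_zero] at h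
    rw [Ideal.mem_bot]
    apply eq_of_forall_mem (maximalIdeal (MvPowerSeries (Fin r) 𝒪))
    intro m
    rw [sub_zero, mem_pow_smul_top_iff]
    -- finiteness of `Λ ⧸ 𝔪 ^ m`
    have hfin : Finite (MvPowerSeries (Fin r) 𝒪 ⧸ maximalIdeal (MvPowerSeries (Fin r) 𝒪) ^ m) := by
      have h0 := FinQuot.fin (I := maximalIdeal (MvPowerSeries (Fin r) 𝒪))
        (M := MvPowerSeries (Fin r) 𝒪) m
      have e : (maximalIdeal (MvPowerSeries (Fin r) 𝒪) ^ m • ⊤ :
          Submodule (MvPowerSeries (Fin r) 𝒪) (MvPowerSeries (Fin r) 𝒪)) =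
          maximalIdeal (MvPowerSeries (Fin r) 𝒪) ^ m := by
        ext x
        exact mem_pow_smul_top_iff _
      rw [e] at h0
      exact h0
    set K : ℕ := Nat.card (Fin d → MvPowerSeries (Fin r) 𝒪 ⧸
      maximalIdeal (MvPowerSeries (Fin r) 𝒪) ^ m) with hK
    have h1 : ∀ᶠ n in (𝔘 : Filter ℕ), ∀ i : Fin d,
        (L n).φ (c i) - phiInf L 𝔘 (c i) ∈ maximalIdeal (MvPowerSeries (Fin r) 𝒪) ^ K :=
      Filter.eventually_all.mpr fun i => phi_close L 𝔘 _ K
    have h2 : ∀ᶠ n in (𝔘 : Filter ℕ), m ≤ n := h𝔘 (eventually_ge_atTop m)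
    obtain ⟨n, hn1, hn2, hn3⟩ := (h1.and (h2.and (h K))).exists
    -- `gen (φ_n ∘ c) ∈ 𝔪 ^ K • ⊤ ≤ phiSub`
    have h3 : gen (L n) (fun i => (L n).φ (c i)) ∈
        (maximalIdeal (MvPowerSeries (Fin r) 𝒪) ^ K) •
          (⊤ : Submodule (MvPowerSeries (Fin r) 𝒪) (L n).N) := by
      have h4 : (fun i => (L n).φ (c i)) =
          ((fun i => (L n).φ (c i)) - fun i => phiInf L 𝔘 (c i)) +
            fun i => phiInf L 𝔘 (c i) := by
        rw [sub_add_cancel]
      rw [h4, map_add]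
      refine Submodule.add_mem _ (gen_mem (L n) ?_) hn3
      rw [mem_smul_top_pi_iff]
      exact hn1
    obtain ⟨hfin', hcard⟩ := finite_quot_phiSub (L n)
      (maximalIdeal (MvPowerSeries (Fin r) 𝒪) ^ m)
    have h5 := pow_smul_top_le_of_card_le (phiSub (L n)
      (maximalIdeal (MvPowerSeries (Fin r) 𝒪) ^ m)) hcard h3
    rw [gen_phi] at h5
    have hJ' : J n ≤ maximalIdeal (MvPowerSeries (Fin r) 𝒪) ^ m :=
      (hJ n).trans (Ideal.pow_le_pow_right (by omega))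
    exact mem_of_sum_mem_phiSub (L n) hJ' c h5 i₀
  · intro h
    have : ∀ i, c i = 0 := fun i => (Ideal.mem_bot).mp (h i)
    simp [this]

theorem span_le_ker_psiInf :
    Ideal.span (Set.range fun i : Fin r => phiInf L 𝔘 (MvPowerSeries.X i)) ≤
      RingHom.ker (psiInf L 𝔘 : MvPowerSeries (Fin r) 𝒪 →+* R) := by
  rw [Ideal.span_le]
  rintro _ ⟨j, rfl⟩
  exact psiInf_phiInf_X L 𝔘 j

/-- `(V5)` -/
theorem ker_piInf (h𝔘 : (𝔘 : Filter ℕ) ≤ atTop) (x : Ninf L 𝔘) :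
    piInf L 𝔘 x = 0 ↔
      x ∈ (Ideal.span (Set.range fun i : Fin r => phiInf L 𝔘 (MvPowerSeries.X i))) •
        (⊤ : Submodule (MvPowerSeries (Fin r) 𝒪) (Ninf L 𝔘)) := by
  classical
  constructor
  · intro hx
    obtain ⟨v, rfl⟩ := Submodule.Quotient.mk_surjective _ x
    rw [piInf_mk, piLim_apply] at hx
    -- the predicate `P n m`
    set P : ℕ → ℕ → Prop := fun n m => (L n).π (gen (L n) v) ∈
      (maximalIdeal R ^ m) • (⊤ : Submodule R M) with hP
    have hP0 : ∀ n, P n 0 := fun n => by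
      simp only [hP, pow_zero, Ideal.one_eq_top, Submodule.top_smul, Submodule.mem_top]
    set μ : ℕ → ℕ := fun n => Nat.findGreatest (P n) n with hμ
    have hPμ : ∀ n, P n (μ n) := fun n => Nat.findGreatest_spec (Nat.zero_le n) (hP0 n)
    -- decompose `gen v`
    have h1 : ∀ n, ∃ u : Fin r → (Fin d → MvPowerSeries (Fin r) 𝒪),
        gen (L n) (v - ∑ j, (L n).φ (X j) • u j) ∈
          (maximalIdeal (MvPowerSeries (Fin r) 𝒪) ^ μ n) •
            (⊤ : Submodule (MvPowerSeries (Fin r) 𝒪) (L n).N) := by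
      intro n
      obtain ⟨xn, hxn, hxn'⟩ := exists_pi_eq_of_mem (L n) (hPμ n)
      have h2 : (L n).π (gen (L n) v - xn) = 0 := by rw [map_sub, hxn', sub_self]
      obtain ⟨y, hy⟩ := exists_sum_of_mem_span_smul_top _ (((L n).ker_π _).mp h2)
      have h3 : ∀ j, ∃ u, gen (L n) u = y j := fun j => gen_surjective (L n) (y j)
      choose u hu using h3
      refine ⟨u, ?_⟩
      have h4 : gen (L n) (v - ∑ j, (L n).φ (X j) • u j) = xn := by
        rw [map_sub, map_sum]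
        simp only [map_smul, hu]
        rw [← hy]
        abel
      rw [h4]
      exact hxn
    choose u hu using h1
    -- the limits of the `u n j`
    set U : Fin r → (Fin d → MvPowerSeries (Fin r) 𝒪) := fun j =>
      ulim (maximalIdeal (MvPowerSeries (Fin r) 𝒪)) 𝔘 (fun n => u n j) with hU
    have hmem : v - ∑ j, phiInf L 𝔘 (X j) • U j ∈ Kinf L 𝔘 := by
      refine mem_Kinf_of_close L 𝔘 (fun n => v - ∑ j, (L n).φ (X j) • u n j) ?_ ?_
      · intro m
        have h5 : ∀ᶠ n in (𝔘 : Filter ℕ), ∀ j : Fin r,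
            (L n).φ (X j) - phiInf L 𝔘 (X j) ∈ maximalIdeal (MvPowerSeries (Fin r) 𝒪) ^ m :=
          Filter.eventually_all.mpr fun j => phi_close L 𝔘 _ m
        have h6 : ∀ᶠ n in (𝔘 : Filter ℕ), ∀ j : Fin r, u n j - U j ∈
            (maximalIdeal (MvPowerSeries (Fin r) 𝒪) ^ m) •
              (⊤ : Submodule (MvPowerSeries (Fin r) 𝒪) (Fin d → MvPowerSeries (Fin r) 𝒪)) :=
          Filter.eventually_all.mpr fun j =>
            ulim_spec (maximalIdeal (MvPowerSeries (Fin r) 𝒪)) 𝔘 (fun n => u n j) m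
        filter_upwards [h5, h6] with n h7 h8
        have h9 : (v - ∑ j, phiInf L 𝔘 (X j) • U j) - (v - ∑ j, (L n).φ (X j) • u n j) =
            ∑ j, ((L n).φ (X j) • (u n j - U j) +
              ((L n).φ (X j) - phiInf L 𝔘 (X j)) • U j) := by
          simp only [smul_sub, sub_smul, Finset.sum_add_distrib, Finset.sum_sub_distrib]
          abel
        rw [h9]
        refine Submodule.sum_mem _ fun j _ => Submodule.add_mem _ ?_ ?_
        · exact Submodule.smul_mem _ _ (h8 j)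
        · exact Submodule.smul_mem_smul (h7 j) Submodule.mem_top
      · intro m
        have h10 : ∀ᶠ n in (𝔘 : Filter ℕ), m ≤ n := h𝔘 (eventually_ge_atTop m)
        have h11 : ∀ᶠ n in (𝔘 : Filter ℕ), P n m := by
          have := ulim_spec (maximalIdeal R) 𝔘 (fun n => (L n).π (gen (L n) v)) m
          rw [hx] at this
          filter_upwards [this] with n hn
          simpa [hP] using hn
        filter_upwards [h10, h11] with n h12 h13
        have h14 : m ≤ μ n := Nat.le_findGreatest h12 h13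
        exact Submodule.smul_mono_left (Ideal.pow_le_pow_right h14) (hu n)
    have hx' : (Submodule.Quotient.mk v : Ninf L 𝔘) =
        ∑ j, phiInf L 𝔘 (X j) • (Submodule.Quotient.mk (U j) : Ninf L 𝔘) := by
      have := (Submodule.Quotient.eq (Kinf L 𝔘)).mpr hmem
      rw [this, ← Submodule.mkQ_apply, map_sum]
      refine Finset.sum_congr rfl fun j _ => ?_
      rw [map_smul, Submodule.mkQ_apply]
    rw [hx']
    refine Submodule.sum_mem _ fun j _ => ?_
    exact Submodule.smul_mem_smul (Ideal.subset_span (Set.mem_range_self j)) Submodule.mem_top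
  · intro hx
    refine Submodule.smul_induction_on hx ?_ ?_
    · intro a ha y _
      rw [piInf_smul]
      have := span_le_ker_psiInf L 𝔘 ha
      rw [RingHom.mem_ker] at this
      have h2 : psiInf L 𝔘 a = 0 := this
      rw [h2, zero_smul]
    · intro y z hy hz
      rw [map_add, hy, hz, add_zero]

end Limit

end Fermat.Agent.S59.Patch
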