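import Mathlib
import Fermat.Prelude.Def_Algebra_PatchingDatum
import Fermat.Prelude.Thm_IsAdicComplete_of_module_finite
import Fermat.Agent.S53.Limit
import Fermat.Agent.S53.H50_Complete
import Fermat.Agent.S59.Patch.ULim
import Fermat.Agent.S59.Patch.Level
import Fermat.Agent.S59.Patch.Limit

/-!
# S59 / PATCH (helper53): patching

`Fermat.Agent.S59.Patch.patch`: a patching datum (a patching level with relation ideal
`((1 + X_j) ^ (p ^ n) - 1)_j` for every `n`) over a complete discrete valuation ring `𝒪` with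
finite residue field of characteristic `p`, for a complete noetherian local `𝒪`-algebra `R`,
gives a patching level with relation ideal `⊥` (to which S57 applies).

The proof takes limits along a non-principal ultrafilter on `ℕ` (`Limit.lean`).
-/

set_option autoImplicit false
set_option linter.style.haveILetI false
set_option linter.unusedSectionVars false

namespace Fermat.Agent.S59.Patch

open IsLocalRing MvPowerSeries Filter

section Assemble

variable {𝒪 : Type} [CommRing 𝒪] [IsLocalRing 𝒪]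
  {r : ℕ} {R : Type} [CommRing R] [IsLocalRing R] [Algebra 𝒪 R]
  {M : Type} [AddCommGroup M] [Module R M] {d : ℕ}
  [IsAdicComplete (maximalIdeal (MvPowerSeries (Fin r) 𝒪)) (MvPowerSeries (Fin r) 𝒪)]
  [FinQuot (maximalIdeal (MvPowerSeries (Fin r) 𝒪)) (MvPowerSeries (Fin r) 𝒪)]
  [IsAdicComplete (maximalIdeal (MvPowerSeries (Fin r) 𝒪)) (Fin d → MvPowerSeries (Fin r) 𝒪)]
  [FinQuot (maximalIdeal (MvPowerSeries (Fin r) 𝒪)) (Fin d → MvPowerSeries (Fin r) 𝒪)]
  [IsAdicComplete (maximalIdeal R) R] [FinQuot (maximalIdeal R) R]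
  [IsAdicComplete (maximalIdeal R) M] [FinQuot (maximalIdeal R) M]
  {J : ℕ → Ideal (MvPowerSeries (Fin r) 𝒪)} (L : ∀ n, LevelD 𝒪 r R M (J n) d)
  (𝔘 : Ultrafilter ℕ)

/-- The limit level. -/
noncomputable def limLevel (h𝔘 : (𝔘 : Filter ℕ) ≤ atTop)
    (hJ : ∀ n, J n ≤ maximalIdeal (MvPowerSeries (Fin r) 𝒪) ^ (n + 1)) :
    LevelD 𝒪 r R M ⊥ d where
  N := Ninf L 𝔘
  φ := phiInf L 𝔘
  ψ := psiInf L 𝔘
  ψ_surjective := psiInf_surjective L 𝔘
  ψ_φ_X := psiInf_phiInf_X L 𝔘
  π := piInf L 𝔘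
  π_smul := piInf_smul L 𝔘
  π_surjective := piInf_surjective L 𝔘
  ker_π := ker_piInf L 𝔘 h𝔘
  b := fun i => Submodule.Quotient.mk (Pi.single i 1)
  b_span := b_span_inf L 𝔘
  b_rel := b_rel_inf L 𝔘 h𝔘 hJ

end Assemble

/-- **PATCH**: a patching datum gives a patching level with trivial relation ideal. -/
theorem patch {𝒪 : Type} [CommRing 𝒪] [IsDomain 𝒪] [IsDiscreteValuationRing 𝒪]
    [IsAdicComplete (maximalIdeal 𝒪) 𝒪] [Finite (ResidueField 𝒪)]
    {p : ℕ} (hp : (p : 𝒪) ∈ maximalIdeal 𝒪)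
    {r : ℕ} {R : Type} [CommRing R] [IsLocalRing R] [IsNoetherianRing R]
    [IsAdicComplete (maximalIdeal R) R] [Algebra 𝒪 R] [IsLocalHom (algebraMap 𝒪 R)]
    (hres : Function.Surjective (residue R ∘ algebraMap 𝒪 R))
    {M : Type} [AddCommGroup M] [Module R M]
    (D : Algebra.PatchingDatum 𝒪 p r R M) :
    Nonempty (Algebra.PatchingLevel 𝒪 r R M ⊥) := by
  -- the rank
  letI : Module 𝒪 M := Module.compHom M (algebraMap 𝒪 R)
  haveI : IsScalarTower 𝒪 R M := ⟨fun a b x => by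
    change (a • b) • x = algebraMap 𝒪 R a • (b • x)
    rw [Algebra.smul_def, mul_smul]⟩
  have hd : ∀ n, (D.level n).d = (D.level 0).d := by
    intro n
    have h1 := finrank_eq (LevelD.ofLevel (D.level n) rfl) (relIdeal_le_span_X r p n)
    have h2 := finrank_eq (LevelD.ofLevel (D.level 0) rfl) (relIdeal_le_span_X r p 0)
    rw [← h1, ← h2]
  set d := (D.level 0).d with hd0
  let L : ∀ n, LevelD 𝒪 r R M (relIdeal r p n) d := fun n => LevelD.ofLevel (D.level n) (hd n)
  -- the profinite structures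
  haveI : IsAdicComplete (maximalIdeal (MvPowerSeries (Fin r) 𝒪)) (MvPowerSeries (Fin r) 𝒪) :=
    Fermat.Agent.S53.Limit.isAdicComplete_mvPowerSeries_fin 𝒪 r
  haveI : IsLocalHom (algebraMap 𝒪 (MvPowerSeries (Fin r) 𝒪)) :=
    Fermat.Agent.S53.Limit.isLocalHom_algebraMap_mvPowerSeries 𝒪 (Fin r)
  haveI : Finite (ResidueField (MvPowerSeries (Fin r) 𝒪)) :=
    Fermat.Agent.S53.H50.finite_residueField_of_surjective 𝒪 (MvPowerSeries (Fin r) 𝒪)
      (Fermat.Agent.S53.Limit.residue_surjective_mvPowerSeries 𝒪 (Fin r))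
  haveI : FinQuot (maximalIdeal (MvPowerSeries (Fin r) 𝒪)) (MvPowerSeries (Fin r) 𝒪) :=
    finQuot_of_isLocalRing _
  haveI : IsAdicComplete (maximalIdeal (MvPowerSeries (Fin r) 𝒪))
      (Fin d → MvPowerSeries (Fin r) 𝒪) :=
    IsAdicComplete.of_module_finite _ _
  haveI : FinQuot (maximalIdeal (MvPowerSeries (Fin r) 𝒪)) (Fin d → MvPowerSeries (Fin r) 𝒪) :=
    finQuot_of_finite _
  haveI : Finite (ResidueField R) :=
    Fermat.Agent.S53.H50.finite_residueField_of_surjective 𝒪 R hres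
  haveI : FinQuot (maximalIdeal R) R := finQuot_of_isLocalRing _
  haveI : Module.Finite R M := moduleFinite (L 0)
  haveI : IsAdicComplete (maximalIdeal R) M := IsAdicComplete.of_module_finite _ _
  haveI : FinQuot (maximalIdeal R) M := finQuot_of_finite _
  -- a non-principal ultrafilter
  have h𝔘 : ((hyperfilter ℕ : Ultrafilter ℕ) : Filter ℕ) ≤ atTop := by
    rw [← Nat.cofinite_eq_atTop]
    exact hyperfilter_le_cofinite
  exact ⟨(limLevel L (hyperfilter ℕ) h𝔘 (fun n => relIdeal_le_pow r hp n)).toLevel⟩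

end Fermat.Agent.S59.Patch
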